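import Fermat.Agent.AbVar.Divisor.Equation
import Fermat.Agent.AbVar.Translation
import Fermat.Agent.AbVar.LocalHom
import Fermat.Agent.AbVar.Count.Input

/-!
# Line bundles with enough sections

For finitely many rational points, the divisor outside an affine open containing them gives a
line bundle with algebraically independent sections and functions separating the points.
-/

set_option autoImplicit false
set_option linter.unusedSectionVars false
set_option linter.style.haveILetI false

noncomputable section

universe u

open CategoryTheory CategoryTheory.Limits AlgebraicGeometry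

namespace FermatAgent.AbVar

namespace AV

variable {K : Type u} [Field K] {G : AV K} [IsIntegral G.carrier]

namespace CartData

variable (D : CartData G)

/-- A power of a divisor. -/
def pow (a : ℕ) : CartData G where
  eqn x := D.eqn x ^ a
  eqn_ne x := pow_ne_zero a (D.eqn_ne x)
  nhd ξ := by
    obtain ⟨N, hN, h⟩ := D.nhd ξ
    refine ⟨N, hN, fun y hy => ?_⟩
    obtain ⟨w, hw⟩ := h y hy
    exact ⟨w ^ a, by rw [Units.val_pow_eq_pow_val, map_pow, hw, div_pow]⟩

end CartData

theorem valueOf_genericPt {f : G.Rat} (hf : G.RegularAt f (centre G.genericPt)) :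
    valueOf G.genericPt f = f := by
  unfold genericPt at hf ⊢
  obtain ⟨z, rfl⟩ := hf
  rw [valueOf_toRat]
  have e : centre (G.stalkPt (genericPoint G.carrier)) = genericPoint G.carrier :=
    centre_stalkPt _
  have hz : G.spHom (specializes_of_eq e) (G.spHom (specializes_of_eq e.symm) z) = z := by
    rw [G.spHom_spHom, spHom_rfl]
  conv_lhs => rw [← hz]
  rw [stalkHom_stalkPt]
  rfl

/-- Regular after multiplying by a power of the equation gives a section. -/
theorem mem_sect_of_regularAt (D : CartData G) (h1 : D.eqn (genericPoint G.carrier) = 1) {m : ℕ}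
    {f : G.Rat} (hf : ∀ x, G.RegularAt (f * D.eqn x ^ m) x) :
    f ∈ sect G.genericPt D.lineBundle m := by
  rw [mem_sect]
  intro V hV
  haveI := hV.isLocalRing
  have hc : centre (map V.val (lift hV G.genericPt)) = genericPoint G.carrier := by
    rw [map_lift, centre_genericPt]
  have hreg := hf (centre (lift hV G.genericPt))
  have hsp := centre_map_specializes V.val (lift hV G.genericPt)
  have hval : (D.lineBundle.val hV G.genericPt : G.Rat) =
      D.eqn (centre (lift hV G.genericPt)) := by
    rw [D.coe_val, centre_genericPt, h1, div_one, valueOf_genericPt]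
    have h := D.regularAt_ratio hsp
    rw [map_lift, centre_genericPt, h1, div_one] at h
    rwa [centre_genericPt]
  have hgen : G.RegularAt (f * D.eqn (centre (lift hV G.genericPt)) ^ m)
      (centre G.genericPt) := by
    have := hreg.mono _ hsp
    rwa [map_lift] at this
  rw [hval, ← valueOf_genericPt hgen]
  have h := valueOf_map V.val (lift hV G.genericPt) hreg
  rw [map_lift] at h
  rw [h]
  exact Subtype.prop _

/-- Functions on an affine open separate finitely many of its rational points. -/
theorem exists_separating {U : G.carrier.Opens} (hU : IsAffineOpen U) {ι : Type*} [Finite ι]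
    (s : ι → G.Pt K) (hs : Function.Injective s) (hsU : ∀ i, centre (s i) ∈ U) (i : ι) :
    ∃ e : Γ(G.carrier, U), ∀ j, (j = i → chartCoord (s j) (hsU j) e = 1) ∧
      (j ≠ i → chartCoord (s j) (hsU j) e = 0) := by
  classical
  cases nonempty_fintype ι
  have hne : ∀ j, j ≠ i → ∃ z, chartCoord (s i) (hsU i) z = 1 ∧ chartCoord (s j) (hsU j) z = 0 := by
    intro j hj
    obtain ⟨z, hz⟩ : ∃ z, chartCoord (s i) (hsU i) z ≠ chartCoord (s j) (hsU j) z := by
      by_contra hc
      simp only [not_exists, not_not] at hc
      refine hj (hs ?_)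
      rw [← chartPoint_chartCoord hU (s i) (hsU i), ← chartPoint_chartCoord hU (s j) (hsU j)]
      congr 1
      exact RingHom.ext fun w => (hc w).symm
    have hstr : ∀ (k : ι) (c : K), chartCoord (s k) (hsU k) (chartStr hU c) = c := fun k c =>
      RingHom.congr_fun (chartCoord_comp hU (s k) (hsU k)) c
    refine ⟨(z - chartStr hU (chartCoord (s j) (hsU j) z)) *
      chartStr hU (chartCoord (s i) (hsU i) z - chartCoord (s j) (hsU j) z)⁻¹, ?_, ?_⟩
    · rw [map_mul, map_sub, hstr, hstr, mul_inv_cancel₀ (sub_ne_zero.mpr hz)]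
    · rw [map_mul, map_sub, hstr, sub_self, zero_mul]
  choose z hz₁ hz₀ using hne
  refine ⟨∏ j : {j // j ≠ i}, z j.1 j.2, fun j => ⟨fun h => ?_, fun h => ?_⟩⟩
  · subst h
    rw [map_prod]
    exact Finset.prod_eq_one fun k _ => hz₁ k.1 k.2
  · rw [map_prod]
    exact Finset.prod_eq_zero (Finset.mem_univ (⟨j, h⟩ : {j // j ≠ i})) (hz₀ j h)

/-- A line bundle with a constant and `dim` algebraically independent sections. -/
theorem exists_sections [CompactSpace G.carrier]
    [∀ x : G.carrier, UniqueFactorizationMonoid (G.Stalk x)]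
    (htr : Algebra.trdeg K G.Rat = G.dim) :
    ∃ (B : G.LineBundle) (x : Fin G.dim → G.Rat),
      (1 : G.Rat) ∈ sect G.genericPt B 1 ∧ (∀ i, x i ∈ sect G.genericPt B 1) ∧
      AlgebraicIndependent K x := by
  classical
  obtain ⟨_, ⟨U, hU, rfl⟩, hgen, -⟩ := G.carrier.isBasis_affineOpens.exists_subset_of_mem_open
    (Set.mem_univ (genericPoint G.carrier)) isOpen_univ
  haveI : Nonempty U := ⟨⟨_, hgen⟩⟩
  letI := chartAlgebra hU
  -- functions on `U` containing a transcendence basis
  have hfrac : IsFractionRing Γ(G.carrier, U) G.Rat :=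
    functionField_isFractionRing_of_isAffineOpen G.carrier U hU
  let ψ : Γ(G.carrier, U) →ₐ[K] G.Rat :=
    { (G.carrier.germToFunctionField U).hom with
      commutes' := fun c => germ_chartStr hU hgen c }
  haveI : Algebra.IsAlgebraic (Algebra.adjoin K (Set.range ψ)) G.Rat := by
    refine ⟨fun r => ?_⟩
    obtain ⟨a, b, hb, rfl⟩ := IsFractionRing.div_surjective (A := Γ(G.carrier, U)) r
    have hmem : ∀ c, IsAlgebraic (Algebra.adjoin K (Set.range ψ))
        (algebraMap Γ(G.carrier, U) G.Rat c) := fun c =>
      isAlgebraic_algebraMap (⟨ψ c, Algebra.subset_adjoin ⟨c, rfl⟩⟩ :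
        Algebra.adjoin K (Set.range ψ))
    rw [div_eq_mul_inv]
    exact (hmem a).mul (hmem b).inv
  obtain ⟨T, hT, hTb⟩ := exists_isTranscendenceBasis_subset (R := K) (Set.range ψ)
  have hcard : Cardinal.mk T = G.dim := hTb.cardinalMk_eq_trdeg.trans htr
  obtain ⟨eT⟩ := Cardinal.mk_eq_nat_iff.mp hcard
  choose pre hpre using fun i : Fin G.dim => hT (eT.symm i).2
  have hpow := fun r => exists_pow_regularAt hU r
  choose a ha using hpow
  let A : ℕ := a 1 + ∑ i, a (pre i) + 1
  let D : CartData G := (offData hU).pow A
  have hD1 : D.eqn (genericPoint G.carrier) = 1 := by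
    show offEqn hU _ ^ A = 1
    rw [offEqn_eq_one hU hgen, one_pow]
  have hsect : ∀ r, a r ≤ A → G.carrier.germToFunctionField U r ∈
      sect G.genericPt D.lineBundle 1 := fun r hr => mem_sect_of_regularAt D hD1 fun x => by
    rw [pow_one]; exact ha r x A hr
  refine ⟨D.lineBundle, fun i => (eT.symm i : G.Rat), ?_, fun i => ?_, ?_⟩
  · have := hsect 1 (by show a 1 ≤ _; omega)
    rwa [map_one] at this
  · show (eT.symm i : G.Rat) ∈ _
    rw [← hpre i]
    exact hsect _ ((Finset.single_le_sum (f := fun i => a (pre i)) (fun _ _ => Nat.zero_le _)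
      (Finset.mem_univ i)).trans (by omega))
  · exact hTb.1.comp _ eT.symm.injective

/-- Rational functions separating finitely many rational points. -/
theorem exists_separation [IsAlgClosed K] {ι : Type*} [Finite ι] (s : ι → G.Pt K)
    (hs : Function.Injective s) :
    ∃ e : ι → G.Rat, ∀ i j, G.RegularAt (e i) (centre (s j)) ∧
      (i = j → valueOf (s j) (e i) = 1) ∧ (i ≠ j → valueOf (s j) (e i) = 0) := by
  obtain ⟨U, hU, hne, hsU⟩ := G.exists_affine_forall_mem s
  haveI := hne
  choose sep hsep using exists_separating hU s hs hsU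
  refine ⟨fun i => G.carrier.germToFunctionField U (sep i),
    fun i j => ⟨regularAt_germToFunctionField (hsU j) _, ?_⟩⟩
  beta_reduce
  rw [← toRat_germ (hsU j), valueOf_toRat]
  exact ⟨fun h => (hsep i j).1 h.symm, fun h => (hsep i j).2 (Ne.symm h)⟩

end AV

end FermatAgent.AbVar
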