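import Fermat.Agent.AbVar.Divisor.Spread
import Fermat.Agent.AbVar.Cartier

/-!
# The divisor outside an affine open

Local equations of the complement of an affine open `U`: they are regular, equal to one on `U`,
and every function on `U` times a power of them is regular everywhere.
-/

set_option autoImplicit false
set_option linter.style.haveILetI false

noncomputable section

universe u

open CategoryTheory CategoryTheory.Limits AlgebraicGeometry

namespace FermatAgent.AbVar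

namespace AV

variable {K : Type u} [Field K] {G : AV K} [IsIntegral G.carrier]

/-- A rational function is a local equation of the complement of `U` at `x`. -/
def IsEquationAt (U : G.carrier.Opens) (x : G.carrier) (f : G.Rat) : Prop :=
  ∃ w : G.Stalk x, G.toRat x w = f ∧ offIdeal U x = Ideal.span {w}

theorem IsEquationAt.exists_unit {U : G.carrier.Opens} {x : G.carrier} {f f' : G.Rat}
    (hf : IsEquationAt U x f) (hf' : IsEquationAt U x f') (hf0 : f ≠ 0) :
    ∃ c : (G.Stalk x)ˣ, G.toRat x c = f' / f := by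
  obtain ⟨w, rfl, hw⟩ := hf
  obtain ⟨w', rfl, hw'⟩ := hf'
  obtain ⟨c, hc⟩ := Ideal.span_singleton_eq_span_singleton.mp (hw.symm.trans hw')
  refine ⟨c, ?_⟩
  rw [eq_div_iff hf0, ← map_mul, mul_comm, hc]

variable {U : G.carrier.Opens} [Nonempty U] (hU : IsAffineOpen U)
  [∀ x : G.carrier, UniqueFactorizationMonoid (G.Stalk x)]

include hU in
theorem exists_isEquationAt (x : G.carrier) :
    ∃ f : G.Rat, f ≠ 0 ∧ IsEquationAt U x f ∧ (x ∈ U → f = 1) := by
  classical
  obtain ⟨e, he0, he, hmem⟩ := exists_generator hU x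
  by_cases hx : x ∈ U
  · have hu : IsUnit e := by simpa using (hmem x specializes_rfl).mp hx
    refine ⟨1, one_ne_zero, ⟨1, map_one _, ?_⟩, fun _ => rfl⟩
    rw [he, Ideal.span_singleton_eq_span_singleton]
    exact associated_one_iff_isUnit.mpr hu
  · exact ⟨G.toRat x e, (map_ne_zero_iff _ (G.toRat_injective x)).mpr he0, ⟨e, rfl, he⟩,
      fun h => absurd h hx⟩

/-- The local equation of the complement. -/
def offEqn (x : G.carrier) : G.Rat := (exists_isEquationAt hU x).choose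

theorem offEqn_ne (x : G.carrier) : offEqn hU x ≠ 0 :=
  (exists_isEquationAt hU x).choose_spec.1

theorem isEquationAt_offEqn (x : G.carrier) : IsEquationAt U x (offEqn hU x) :=
  (exists_isEquationAt hU x).choose_spec.2.1

theorem offEqn_eq_one {x : G.carrier} (hx : x ∈ U) : offEqn hU x = 1 :=
  (exists_isEquationAt hU x).choose_spec.2.2 hx

theorem regularAt_offEqn (x : G.carrier) : G.RegularAt (offEqn hU x) x := by
  obtain ⟨w, hw, -⟩ := isEquationAt_offEqn hU x
  exact ⟨w, hw⟩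

theorem offEqn_nhd (ξ : G.carrier) : ∃ N : G.carrier.Opens, ξ ∈ N ∧
    ∀ y ∈ N, IsEquationAt U y (offEqn hU ξ) := by
  classical
  obtain ⟨_, ⟨W, hW, rfl⟩, hξW, -⟩ := G.carrier.isBasis_affineOpens.exists_subset_of_mem_open
    (Set.mem_univ ξ) isOpen_univ
  letI := chartAlgebra hW
  haveI : Algebra.FiniteType K Γ(G.carrier, W) := finiteType_chartStr hW
  haveI : IsNoetherianRing Γ(G.carrier, W) := Algebra.FiniteType.isNoetherianRing K _
  obtain ⟨s, hs⟩ := IsNoetherian.noetherian (chartOffIdeal hW U)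
  obtain ⟨w, hwf, hw⟩ := isEquationAt_offEqn hU ξ
  let gξ := (G.carrier.presheaf.germ W ξ hξW).hom
  have hI : (Ideal.span (s : Set Γ(G.carrier, W))).map gξ = Ideal.span {w} := by
    rw [← hw, show Ideal.span (s : Set Γ(G.carrier, W)) = chartOffIdeal hW U from hs]
    exact span_germ_eq_offIdeal hW U hξW
  have hmul : ∀ a ∈ s, ∃ c : G.Stalk ξ, gξ a = c * w := fun a ha => by
    have h : gξ a ∈ Ideal.span {w} := hI ▸ Ideal.mem_map_of_mem _ (Ideal.subset_span ha)
    obtain ⟨c, hc⟩ := Ideal.mem_span_singleton'.mp h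
    exact ⟨c, hc.symm⟩
  choose c hc using hmul
  have hlin : w ∈ Ideal.span ((s.image gξ : Finset (G.Stalk ξ)) : Set (G.Stalk ξ)) := by
    rw [Finset.coe_image, ← Ideal.map_span, hI]
    exact Ideal.mem_span_singleton_self w
  obtain ⟨l, -, hl⟩ := Submodule.mem_span_finset.mp hlin
  -- coefficients regular near `ξ`
  have hreg : ∀ z : G.Stalk ξ, ∃ V : G.carrier.Opens, ξ ∈ V ∧
      ∀ y ∈ V, G.RegularAt (G.toRat ξ z) y := fun z => exists_open_regularAt ⟨z, rfl⟩
  choose V hξV hV using hreg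
  let N : Set G.carrier := (W : Set G.carrier) ∩ ((⋂ a : (s : Set Γ(G.carrier, W)),
    (V (c a.1 a.2) : Set G.carrier)) ∩ (⋂ b : ((s.image gξ : Finset _) : Set (G.Stalk ξ)),
    (V (l b.1) : Set G.carrier)) ∩ (V w : Set G.carrier))
  have hNopen : IsOpen N :=
    W.isOpen.inter (((isOpen_iInter_of_finite fun _ => (V _).isOpen).inter
      (isOpen_iInter_of_finite fun _ => (V _).isOpen)).inter (V w).isOpen)
  refine ⟨⟨N, hNopen⟩, ⟨hξW, ⟨Set.mem_iInter.mpr fun _ => hξV _,
    Set.mem_iInter.mpr fun _ => hξV _⟩, hξV _⟩, ?_⟩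
  rintro y ⟨hyW, ⟨hyc, hyl⟩, hyw⟩
  haveI : Nonempty W := ⟨⟨ξ, hξW⟩⟩
  let gy := (G.carrier.presheaf.germ W y hyW).hom
  have hrat : ∀ a, G.toRat y (gy a) = G.toRat ξ (gξ a) := fun a =>
    (toRat_germ hyW a).trans (toRat_germ hξW a).symm
  obtain ⟨wy, hwy⟩ := hV w y hyw
  have hJ := span_germ_eq_offIdeal hW U hyW
  refine ⟨wy, hwy.trans hwf, le_antisymm ?_ (Ideal.span_le.mpr (Set.singleton_subset_iff.mpr ?_))⟩
  · rw [← hJ, show chartOffIdeal hW U = Ideal.span (s : Set Γ(G.carrier, W)) from hs.symm,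
      Ideal.map_span, Ideal.span_le]
    rintro _ ⟨a, ha, rfl⟩
    obtain ⟨cy, hcy⟩ := hV (c a ha) y (Set.mem_iInter.mp hyc ⟨a, ha⟩)
    refine Ideal.mem_span_singleton'.mpr ⟨cy, G.toRat_injective y ?_⟩
    rw [map_mul, hcy, hwy, ← map_mul, ← hc a ha]
    exact (hrat a).symm
  · have hly : ∀ b ∈ s.image gξ, ∃ z : G.Stalk y, G.toRat y z = G.toRat ξ (l b) := fun b hb =>
      hV (l b) y (Set.mem_iInter.mp hyl ⟨b, hb⟩)
    choose ly hly' using hly
    have hpre : ∀ b ∈ s.image gξ, ∃ a ∈ s, gξ a = b := fun b hb => Finset.mem_image.mp hb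
    choose pa hpa hpa' using hpre
    have e : wy = ∑ b ∈ (s.image gξ).attach, ly b.1 b.2 * gy (pa b.1 b.2) := by
      refine G.toRat_injective y ?_
      rw [map_sum, hwy, ← hl, map_sum, ← Finset.sum_attach]
      refine Finset.sum_congr rfl fun b _ => ?_
      rw [smul_eq_mul, map_mul, map_mul, hly', hrat, hpa']
    rw [SetLike.mem_coe, e]
    refine Ideal.sum_mem _ fun b _ => Ideal.mul_mem_left _ _ ?_
    exact germ_mem_offIdeal hW (hs ▸ Ideal.subset_span (hpa b.1 b.2)) hyW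

/-- The divisor outside `U`. -/
def offData : CartData G where
  eqn := offEqn hU
  eqn_ne := offEqn_ne hU
  nhd ξ := by
    obtain ⟨N, hN, h⟩ := offEqn_nhd hU ξ
    refine ⟨N, hN, fun y hy => ?_⟩
    exact (isEquationAt_offEqn hU y).exists_unit (h y hy) (offEqn_ne hU y)

theorem regularAt_mul_pow (r : Γ(G.carrier, U)) (x : G.carrier) :
    ∃ a : ℕ, G.RegularAt (G.carrier.germToFunctionField U r * offEqn hU x ^ a) x := by
  obtain ⟨w, hwf, hw⟩ := isEquationAt_offEqn hU x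
  obtain ⟨a, b, hab, hb0, hr⟩ := exists_relPrime_frac x (G.carrier.germToFunctionField U r)
  have hwmem : w ∈ offIdeal U x := hw ▸ Ideal.mem_span_singleton_self w
  suffices ∀ d : G.Stalk x, d ≠ 0 → (∀ π, Prime π → π ∣ d → π ∣ w) → ∃ N : ℕ, d ∣ w ^ N by
    obtain ⟨N, q, hq⟩ := this b hb0 fun π hπ hπb => dvd_of_prime_dvd_den hab hπ hπb r hr hwmem
    exact ⟨N, a * q, by rw [← hwf, ← map_pow, hq, map_mul, map_mul, ← hr, mul_assoc]⟩
  intro d hd
  induction d using UniqueFactorizationMonoid.induction_on_prime with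
  | h₁ => exact absurd rfl hd
  | h₂ c hc => exact fun _ => ⟨0, (hc.dvd : c ∣ 1).trans (by rw [pow_zero])⟩
  | h₃ c π hc0 hπ ih =>
    intro hall
    obtain ⟨N, hN⟩ := ih hc0 fun ρ hρ hρc => hall ρ hρ (hρc.mul_left π)
    exact ⟨N + 1, by rw [pow_succ']; exact mul_dvd_mul (hall π hπ (dvd_mul_right π c)) hN⟩

/-- A uniform power makes a function on `U` regular everywhere. -/
theorem exists_pow_regularAt [CompactSpace G.carrier] (r : Γ(G.carrier, U)) :
    ∃ a : ℕ, ∀ x, ∀ m, a ≤ m →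
      G.RegularAt (G.carrier.germToFunctionField U r * offEqn hU x ^ m) x := by
  have h : ∀ ξ, ∃ (N : G.carrier.Opens) (a : ℕ), ξ ∈ N ∧ ∀ y ∈ N,
      G.RegularAt (G.carrier.germToFunctionField U r * offEqn hU y ^ a) y := by
    intro ξ
    obtain ⟨a, ha⟩ := regularAt_mul_pow hU r ξ
    obtain ⟨V, hξV, hV⟩ := exists_open_regularAt ha
    obtain ⟨N, hξN, hN⟩ := offEqn_nhd hU ξ
    refine ⟨V ⊓ N, a, ⟨hξV, hξN⟩, fun y hy => ?_⟩
    obtain ⟨c, hc⟩ := (hN y hy.2).exists_unit (isEquationAt_offEqn hU y) (offEqn_ne hU ξ)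
    obtain ⟨z, hz⟩ := hV y hy.1
    refine ⟨z * (c : G.Stalk y) ^ a, ?_⟩
    rw [map_mul, map_pow, hz, hc, div_pow, mul_assoc,
      mul_div_cancel₀ _ (pow_ne_zero a (offEqn_ne hU ξ))]
  choose N a hmem hN using h
  obtain ⟨t, ht⟩ := isCompact_univ.elim_finite_subcover (fun ξ => (N ξ : Set G.carrier))
    (fun ξ => (N ξ).isOpen) fun ξ _ => Set.mem_iUnion.mpr ⟨ξ, hmem ξ⟩
  refine ⟨t.sup a, fun x m hm => ?_⟩
  obtain ⟨ξ, hξt, hxξ⟩ := Set.mem_iUnion₂.mp (ht (Set.mem_univ x))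
  obtain ⟨z, hz⟩ := hN ξ x hxξ
  obtain ⟨w, hw⟩ := regularAt_offEqn hU x
  refine ⟨z * w ^ (m - a ξ), ?_⟩
  rw [map_mul, map_pow, hz, hw, mul_assoc, ← pow_add,
    Nat.add_sub_cancel' ((Finset.le_sup hξt).trans hm)]

end AV

end FermatAgent.AbVar
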