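import Fermat.Agent.AbVar.Generisation

/-!
# The ideal of the complement of an affine open in a local ring

In a factorial local ring this ideal is principal, and its generator is invertible exactly on
the affine open.
-/

set_option autoImplicit false
set_option linter.unusedSectionVars false
set_option linter.style.haveILetI false

noncomputable section

universe u

open CategoryTheory CategoryTheory.Limits AlgebraicGeometry

namespace FermatAgent.AbVar

namespace AV

variable {K : Type u} [Field K] {G : AV K}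

theorem spHom_germ {W : G.carrier.Opens} {x y : G.carrier} (h : y ⤳ x) (hx : x ∈ W)
    (hy : y ∈ W) (a : Γ(G.carrier, W)) :
    G.spHom h ((G.carrier.presheaf.germ W x hx).hom a) =
      (G.carrier.presheaf.germ W y hy).hom a := by
  rw [spHom_apply, ← CommRingCat.comp_apply, TopCat.Presheaf.germ_stalkSpecializes]

/-- The functions at `x` vanishing at every generisation outside `U`. -/
def offIdeal (U : G.carrier.Opens) (x : G.carrier) : Ideal (G.Stalk x) where
  carrier := {z | ∀ y, ∀ h : y ⤳ x, y ∉ U → ¬ IsUnit (G.spHom h z)}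
  add_mem' {a b} ha hb y h hy := by
    rw [map_add]
    exact IsLocalRing.nonunits_add (ha y h hy) (hb y h hy)
  zero_mem' y h hy := by rw [map_zero]; exact not_isUnit_zero
  smul_mem' c a ha y h hy := by
    rw [smul_eq_mul, map_mul]
    exact fun hu => ha y h hy (isUnit_of_mul_isUnit_right hu)

theorem mem_offIdeal {U : G.carrier.Opens} {x : G.carrier} {z : G.Stalk x} :
    z ∈ offIdeal U x ↔ ∀ y, ∀ h : y ⤳ x, y ∉ U → ¬ IsUnit (G.spHom h z) := Iff.rfl

/-- At a point of `U`, some function in the ideal is invertible at any chosen generisation. -/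
theorem exists_mem_offIdeal_isUnit {U : G.carrier.Opens} {x y : G.carrier} (h : y ⤳ x)
    (hy : y ∈ U) : ∃ z ∈ offIdeal U x, IsUnit (G.spHom h z) := by
  obtain ⟨_, ⟨W, hW, rfl⟩, hxW, -⟩ := G.carrier.isBasis_affineOpens.exists_subset_of_mem_open
    (Set.mem_univ x) isOpen_univ
  obtain ⟨a, haU, hya⟩ := hW.exists_basicOpen_le (V := U) ⟨y, hy⟩ (h.mem_open W.isOpen hxW)
  refine ⟨(G.carrier.presheaf.germ W x hxW).hom a, fun w hw hwU hu => hwU (haU ?_), ?_⟩
  · rw [spHom_germ hw hxW (hw.mem_open W.isOpen hxW)] at hu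
    exact (G.carrier.mem_basicOpen a w (hw.mem_open W.isOpen hxW)).mpr hu
  · rw [spHom_germ h hxW (h.mem_open W.isOpen hxW)]
    exact (G.carrier.mem_basicOpen a y (h.mem_open W.isOpen hxW)).mp hya

variable [IsIntegral G.carrier] {U : G.carrier.Opens} [Nonempty U]

theorem exists_ne_zero_mem_offIdeal (x : G.carrier) : ∃ z ∈ offIdeal U x, z ≠ 0 := by
  obtain ⟨z, hz, hu⟩ := exists_mem_offIdeal_isUnit (G.specializes_generic x)
    (((genericPoint_spec G.carrier).mem_open_set_iff U.isOpen).mpr (by simpa using ‹Nonempty U›))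
  exact ⟨z, hz, fun h => not_isUnit_zero (by rwa [h, map_zero] at hu)⟩

/-- The generisation attached to a prime element, and its criterion. -/
theorem exists_point_of_prime_elem {x : G.carrier} {π : G.Stalk x} (hπ : Prime π) :
    ∃ y, ∃ h : y ⤳ x, ∀ z, IsUnit (G.spHom h z) ↔ ¬ π ∣ z := by
  haveI : (Ideal.span {π}).IsPrime := (Ideal.span_singleton_prime hπ.ne_zero).mpr hπ
  obtain ⟨y, h, hy⟩ := exists_point_of_prime (Ideal.span {π})
  exact ⟨y, h, fun z => (hy z).trans Ideal.mem_span_singleton.not⟩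

theorem not_regularAt_of_dvd_den {x : G.carrier} {a b π : G.Stalk x} (hab : IsRelPrime a b)
    (hπ : Prime π) (hπb : π ∣ b) {y : G.carrier} (h : y ⤳ x)
    (hy : ∀ z, IsUnit (G.spHom h z) ↔ ¬ π ∣ z) {r : G.Rat}
    (hr : r * G.toRat x b = G.toRat x a) : ¬ G.RegularAt r y := by
  rintro ⟨w, rfl⟩
  rw [← G.toRat_spHom h, ← G.toRat_spHom h a, ← map_mul] at hr
  have e := G.toRat_injective y hr
  have hπa : π ∣ a := by
    by_contra hc
    have hu := (hy a).mpr hc
    rw [← e] at hu
    exact (hy b).mp (isUnit_of_mul_isUnit_right hu) hπb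
  exact hπ.not_isUnit (hab hπa hπb)

theorem regularAt_of_isUnit_den {x y : G.carrier} (h : y ⤳ x) {a b : G.Stalk x} {r : G.Rat}
    (hr : r * G.toRat x b = G.toRat x a) (hb : IsUnit (G.spHom h b)) : G.RegularAt r y := by
  obtain ⟨c, hc⟩ := hb
  refine ⟨G.spHom h a * (c⁻¹ : (G.Stalk y)ˣ), ?_⟩
  rw [map_mul, G.toRat_spHom, ← hr, mul_assoc, ← G.toRat_spHom h, ← map_mul, ← hc,
    Units.mul_inv, map_one, mul_one]

variable (hU : IsAffineOpen U)

/-- The denominator of a function regular on `U` only has prime factors in the ideal's radical. -/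
theorem dvd_of_prime_dvd_den {x : G.carrier} {a b π z : G.Stalk x} (hab : IsRelPrime a b)
    (hπ : Prime π) (hπb : π ∣ b) (r : Γ(G.carrier, U))
    (hr : G.carrier.germToFunctionField U r * G.toRat x b = G.toRat x a)
    (hz : z ∈ offIdeal U x) : π ∣ z := by
  obtain ⟨y, h, hy⟩ := exists_point_of_prime_elem hπ
  have hyU : y ∉ U := fun hyU =>
    not_regularAt_of_dvd_den hab hπ hπb h hy hr (regularAt_germToFunctionField hyU r)
  by_contra hc
  exact hz y h hyU ((hy z).mpr hc)

variable [∀ x : G.carrier, UniqueFactorizationMonoid (G.Stalk x)]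

/-- A reduced fraction for a rational function. -/
theorem exists_relPrime_frac (x : G.carrier) (r : G.Rat) :
    ∃ a b : G.Stalk x, IsRelPrime a b ∧ b ≠ 0 ∧ r * G.toRat x b = G.toRat x a := by
  obtain ⟨a, b, hab, h⟩ := IsFractionRing.exists_reduced_fraction (A := G.Stalk x) r
  refine ⟨a, b, hab, nonZeroDivisors.coe_ne_zero b, ?_⟩
  rw [toRat_apply, toRat_apply, ← h, IsLocalization.mk'_spec]

theorem exists_prime_dvd_of_not_isUnit {x y : G.carrier} (h : y ⤳ x) {b : G.Stalk x}
    (hb : b ≠ 0) (hnu : ¬ IsUnit (G.spHom h b)) :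
    ∃ π, Prime π ∧ π ∣ b ∧ ¬ IsUnit (G.spHom h π) := by
  revert hnu
  induction b using UniqueFactorizationMonoid.induction_on_prime with
  | h₁ => exact absurd rfl hb
  | h₂ c hc => exact fun hnu => absurd (hc.map _) hnu
  | h₃ c π hc0 hπ ih =>
    intro hnu
    by_cases hp : IsUnit (G.spHom h π)
    · rw [map_mul] at hnu
      obtain ⟨ρ, hρ, hρc, hρu⟩ := ih hc0 fun hcu => hnu (hp.mul hcu)
      exact ⟨ρ, hρ, hρc.mul_left π, hρu⟩
    · exact ⟨π, hπ, dvd_mul_right π c, hp⟩

include hU in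
/-- The ideal is principal, with a generator invertible exactly on `U`. -/
theorem exists_generator (x : G.carrier) :
    ∃ e : G.Stalk x, e ≠ 0 ∧ offIdeal U x = Ideal.span {e} ∧
      ∀ y, ∀ h : y ⤳ x, y ∈ U ↔ IsUnit (G.spHom h e) := by
  obtain ⟨z₀, hz₀⟩ := exists_ne_zero_mem_offIdeal (U := U) x
  obtain ⟨e, ⟨he, he0⟩, hmin⟩ := (wellFounded_dvdNotUnit (α := G.Stalk x)).has_min
    {z | z ∈ offIdeal U x ∧ z ≠ 0} ⟨z₀, hz₀⟩
  -- the zero set of every prime factor of `e` leaves `U`
  have key : ∀ π, Prime π → π ∣ e → ∀ z ∈ offIdeal U x, π ∣ z := by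
    rintro π hπ ⟨c, hc⟩ z hz
    obtain ⟨y₁, h₁, hy₁⟩ := exists_point_of_prime_elem hπ
    by_cases hy₁U : y₁ ∈ U
    swap
    · by_contra hd
      exact hz y₁ h₁ hy₁U ((hy₁ z).mpr hd)
    exfalso
    have hc0 : c ≠ 0 := fun h0 => he0 (by rw [hc, h0, mul_zero])
    have hcI : c ∉ offIdeal U x := fun hcI =>
      hmin c ⟨hcI, hc0⟩ ⟨hc0, π, hπ.not_isUnit, by rw [hc, mul_comm]⟩
    simp only [mem_offIdeal, not_forall, not_not] at hcI
    obtain ⟨y, h, hyU, hcu⟩ := hcI
    refine hyU (mem_of_forall_regularAt hU fun r => ?_)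
    obtain ⟨a, b, hab, hb0, hr⟩ := exists_relPrime_frac x (G.carrier.germToFunctionField U r)
    by_contra hnr
    obtain ⟨ρ, hρ, hρb, hρu⟩ := exists_prime_dvd_of_not_isUnit h hb0
      fun hbu => hnr (regularAt_of_isUnit_den h hr hbu)
    have hρe := dvd_of_prime_dvd_den hab hρ hρb r hr he
    rw [hc] at hρe
    rcases hρ.dvd_or_dvd hρe with hρπ | hρc
    · have hπb : π ∣ b := ((hρ.associated_of_dvd hπ hρπ).symm.dvd).trans hρb
      exact not_regularAt_of_dvd_den hab hπ hπb h₁ hy₁ hr (regularAt_germToFunctionField hy₁U r)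
    · exact hρu (isUnit_of_dvd_unit ((G.spHom h).toRingHom.map_dvd hρc) hcu)
  have hle : ∀ z ∈ offIdeal U x, e ∣ z := by
    intro z hz
    obtain ⟨e', z', c, hrel, hce, hcz⟩ := UniqueFactorizationMonoid.exists_reduced_factors e he0 z
    suffices hu : IsUnit e' by
      rw [← hce, ← hcz]; exact mul_dvd_mul_left c hu.dvd
    by_contra hu
    have he' : e' ≠ 0 := fun h0 => he0 (by rw [← hce, h0, mul_zero])
    obtain ⟨π, hmem⟩ := UniqueFactorizationMonoid.exists_mem_factors he' hu
    have hπ := UniqueFactorizationMonoid.prime_of_factor π hmem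
    have hπe' := UniqueFactorizationMonoid.dvd_of_mem_factors hmem
    have hπz : π ∣ c * z' := hcz ▸ key π hπ (hce ▸ hπe'.mul_left c) z hz
    rcases hπ.dvd_or_dvd hπz with hπc | hπz'
    · -- `π ^ 2` divides `e`, against minimality
      obtain ⟨d, hd⟩ : π * π ∣ e := hce ▸ mul_dvd_mul hπc hπe'
      have hpd : π * d ∈ offIdeal U x := fun y h hy hu' => he y h hy (by
        rw [hd, mul_assoc, map_mul]
        exact IsUnit.mul (isUnit_of_mul_isUnit_left (by rwa [map_mul] at hu')) hu')
      have hd0 : π * d ≠ 0 := fun h0 => he0 (by rw [hd, mul_assoc, h0, mul_zero])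
      exact hmin _ ⟨hpd, hd0⟩ ⟨hd0, π, hπ.not_isUnit, by rw [hd]; ring⟩
    · exact hπ.not_isUnit (hrel hπe' hπz')
  refine ⟨e, he0, le_antisymm (fun z hz => Ideal.mem_span_singleton.mpr (hle z hz))
    (Ideal.span_le.mpr (Set.singleton_subset_iff.mpr he)), fun y h => ⟨fun hy => ?_, fun hu => ?_⟩⟩
  · obtain ⟨z, hz, hzu⟩ := exists_mem_offIdeal_isUnit h hy
    exact isUnit_of_dvd_unit ((G.spHom h).toRingHom.map_dvd (hle z hz)) hzu
  · by_contra hy
    exact he y h hy hu

end AV

end FermatAgent.AbVar
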