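import Fermat.Agent.AbVar.Divisor.Local

/-!
# The ideal of the complement spreads out

On an affine neighbourhood the ideal comes from finitely many functions, so a generator at a
point generates at all nearby points.
-/

set_option autoImplicit false
set_option linter.style.haveILetI false

noncomputable section

universe u

open CategoryTheory CategoryTheory.Limits AlgebraicGeometry

namespace FermatAgent.AbVar

namespace AV

variable {K : Type u} [Field K] {G : AV K} {W : G.carrier.Opens} (hW : IsAffineOpen W)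

/-- The functions on an affine open vanishing outside `U`. -/
def chartOffIdeal (U : G.carrier.Opens) : Ideal Γ(G.carrier, W) :=
  PrimeSpectrum.vanishingIdeal {q | hW.fromSpec q ∉ U}

theorem fromSpec_mem (q : PrimeSpectrum Γ(G.carrier, W)) : hW.fromSpec q ∈ W := by
  rw [← SetLike.mem_coe, ← hW.range_fromSpec]
  exact ⟨q, rfl⟩

theorem mem_basicOpen_fromSpec_iff (a : Γ(G.carrier, W)) (q : PrimeSpectrum Γ(G.carrier, W)) :
    hW.fromSpec q ∈ G.carrier.basicOpen a ↔ a ∉ q.asIdeal := by
  have h := SetLike.ext_iff.mp (hW.fromSpec_preimage_basicOpen a) q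
  exact h.trans (PrimeSpectrum.mem_basicOpen a q)

theorem mem_chartOffIdeal_iff {U : G.carrier.Opens} {a : Γ(G.carrier, W)} :
    a ∈ chartOffIdeal hW U ↔ ∀ y ∈ W, y ∉ U → y ∉ G.carrier.basicOpen a := by
  rw [chartOffIdeal, PrimeSpectrum.mem_vanishingIdeal]
  refine ⟨fun h y hy hyU hb => ?_, fun h q hq => ?_⟩
  · have e := hW.fromSpec_primeIdealOf ⟨y, hy⟩
    have := h (hW.primeIdealOf ⟨y, hy⟩) (show hW.fromSpec (hW.primeIdealOf ⟨y, hy⟩) ∉ U by
      rw [e]; exact hyU)
    exact (mem_basicOpen_fromSpec_iff hW a _).mp (by rw [e]; exact hb) this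
  · by_contra hc
    exact h _ (fromSpec_mem hW q) hq ((mem_basicOpen_fromSpec_iff hW a q).mpr hc)

theorem germ_mem_offIdeal {U : G.carrier.Opens} {a : Γ(G.carrier, W)}
    (ha : a ∈ chartOffIdeal hW U) {x : G.carrier} (hx : x ∈ W) :
    (G.carrier.presheaf.germ W x hx).hom a ∈ offIdeal U x := fun y h hyU hu => by
  rw [spHom_germ h hx (h.mem_open W.isOpen hx)] at hu
  exact (mem_chartOffIdeal_iff hW).mp ha y (h.mem_open W.isOpen hx) hyU
    ((G.carrier.mem_basicOpen a y _).mpr hu)

theorem span_germ_eq_offIdeal [IsNoetherianRing Γ(G.carrier, W)] (U : G.carrier.Opens)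
    {x : G.carrier} (hx : x ∈ W) :
    (chartOffIdeal hW U).map (G.carrier.presheaf.germ W x hx).hom = offIdeal U x := by
  refine le_antisymm (Ideal.map_le_iff_le_comap.mpr fun a ha => germ_mem_offIdeal hW ha hx)
    fun z hz => ?_
  letI := TopCat.Presheaf.algebra_section_stalk G.carrier.presheaf (⟨x, hx⟩ : W)
  haveI := hW.isLocalization_stalk ⟨x, hx⟩
  let q := hW.primeIdealOf ⟨x, hx⟩
  have hqx : hW.fromSpec q = x := hW.fromSpec_primeIdealOf ⟨x, hx⟩
  obtain ⟨⟨a, s⟩, hs⟩ := IsLocalization.surj q.asIdeal.primeCompl z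
  replace hs : z * (G.carrier.presheaf.germ W x hx).hom (s : Γ(G.carrier, W)) =
      (G.carrier.presheaf.germ W x hx).hom a := hs
  have hsu : IsUnit ((G.carrier.presheaf.germ W x hx).hom (s : Γ(G.carrier, W))) :=
    IsLocalization.map_units (G.Stalk x) s
  classical
  let S := (Ideal.finite_minimalPrimes_of_isNoetherianRing _ (chartOffIdeal hW U)).toFinset.filter
    fun p => ¬ p ≤ q.asIdeal
  have hne : ∀ p ∈ S, ∃ c ∈ p, c ∉ q.asIdeal := fun p hp =>
    SetLike.not_le_iff_exists.mp (Finset.mem_filter.mp hp).2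
  choose c hcp hcq using hne
  let t := ∏ p ∈ S.attach, c p.1 p.2
  have htq : t ∉ q.asIdeal := by
    intro h
    obtain ⟨p, -, hp⟩ := Ideal.IsPrime.prod_mem_iff.mp h
    exact hcq p.1 p.2 hp
  have htu : IsUnit ((G.carrier.presheaf.germ W x hx).hom t) :=
    IsLocalization.map_units (G.Stalk x) (⟨t, htq⟩ : q.asIdeal.primeCompl)
  have hat : a * t ∈ chartOffIdeal hW U := by
    rw [chartOffIdeal, PrimeSpectrum.mem_vanishingIdeal]
    intro q' hq'
    obtain ⟨p, hp, hpq⟩ := Ideal.exists_minimalPrimes_le (I := chartOffIdeal hW U)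
      (J := q'.asIdeal) fun b hb => (PrimeSpectrum.mem_vanishingIdeal _ _).mp hb q' hq'
    by_cases hpq' : p ≤ q.asIdeal
    · refine q'.asIdeal.mul_mem_right t (hpq ?_)
      let pp : PrimeSpectrum Γ(G.carrier, W) := ⟨p, hp.1.1⟩
      have hsp : hW.fromSpec pp ⤳ x :=
        hqx ▸ ((PrimeSpectrum.le_iff_specializes pp q).mp hpq').map hW.fromSpec.continuous
      have hpU : hW.fromSpec pp ∉ U := fun hmem => by
        obtain ⟨b, hbU, hb⟩ := hW.exists_basicOpen_le (V := U) ⟨_, hmem⟩ (fromSpec_mem hW pp)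
        refine (mem_basicOpen_fromSpec_iff hW b pp).mp hb (hp.1.2 ?_)
        exact (mem_chartOffIdeal_iff hW).mpr fun y _ hy hb' => hy (hbU hb')
      have hnu := hz _ hsp hpU
      have hy := fromSpec_mem hW pp
      by_contra hc
      apply hnu
      have hau : IsUnit ((G.carrier.presheaf.germ W _ hy).hom a) :=
        (G.carrier.mem_basicOpen a _ hy).mp ((mem_basicOpen_fromSpec_iff hW a pp).mpr hc)
      rw [← spHom_germ hsp hx hy, ← hs, map_mul] at hau
      exact isUnit_of_mul_isUnit_left hau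
    · have hpS : p ∈ S := Finset.mem_filter.mpr ⟨(Set.Finite.mem_toFinset _).mpr hp, hpq'⟩
      exact q'.asIdeal.mul_mem_left a (q'.asIdeal.mem_of_dvd
        (Finset.dvd_prod_of_mem _ (Finset.mem_attach S ⟨p, hpS⟩)) (hpq (hcp p hpS)))
  have := Ideal.mem_map_of_mem (G.carrier.presheaf.germ W x hx).hom hat
  rw [map_mul, ← hs, mul_assoc] at this
  exact (Ideal.mul_unit_mem_iff_mem _ (hsu.mul htu)).mp this

section Regular

variable [IsIntegral G.carrier]

/-- Regularity is an open condition. -/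
theorem exists_open_regularAt {f : G.Rat} {x : G.carrier} (hf : G.RegularAt f x) :
    ∃ V : G.carrier.Opens, x ∈ V ∧ ∀ y ∈ V, G.RegularAt f y := by
  obtain ⟨z, rfl⟩ := hf
  obtain ⟨V, hV, a, ha⟩ := G.carrier.presheaf.exists_germ_eq z
  haveI : Nonempty V := ⟨⟨x, hV⟩⟩
  refine ⟨V, hV, fun y hy => ⟨(G.carrier.presheaf.germ V y hy).hom a, ?_⟩⟩
  rw [toRat_germ hy, ← toRat_germ hV a]
  exact congrArg _ ha

end Regular

end AV

end FermatAgent.AbVar
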